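import Fermat.Agent.S24.FF.Principal
import Fermat.Agent.S24.FF.Avoid

/-!
# S17 / Part A : function fields of curves over an algebraically closed field of characteristic 0

Basic definitions (sorry-free): the class `IsFF`, principal divisors `divf`, Riemann-Roch spaces `LSp`,
evaluation `val`.  Built on `Fermat.Agent.S24.FF`.
-/

set_option autoImplicit false

open AlgebraicCurve IntermediateField

namespace Fermat.Agent.S17.FF

open Fermat.Agent.S24.FF

/-- `F/K` is a function field in one variable. -/
class IsFF (K F : Type*) [Field K] [Field F] [Algebra K F] : Prop where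
  exists_gen : ∃ y : F, Transcendental K y ∧ FiniteDimensional K⟮y⟯ F

variable {K F : Type*} [Field K] [Field F] [Algebra K F]

section Wrappers

variable [IsAlgClosed K] [CharZero K] [IsFF K F]

theorem deg_eq_one (v : Place K F) : v.deg = 1 := by
  obtain ⟨y, hy, hfin⟩ := IsFF.exists_gen (K := K) (F := F)
  exact Fermat.Agent.S24.FF.deg_eq_one K y hy v

theorem finite_ord_ne_zero (f : F) : {v : Place K F | v.ord f ≠ 0}.Finite := by
  obtain ⟨y, hy, hfin⟩ := IsFF.exists_gen (K := K) (F := F)
  rcases eq_or_ne f 0 with rfl | hf
  · simp
  · exact Fermat.Agent.S24.FF.finite_ord_ne_zero K y hy hf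

theorem exists_sub_ord_pos (v : Place K F) {f : F} (hf : 0 ≤ v.ord f) :
    ∃ c : K, f = algebraMap K F c ∨ 0 < v.ord (f - algebraMap K F c) := by
  obtain ⟨y, hy, hfin⟩ := IsFF.exists_gen (K := K) (F := F)
  exact Fermat.Agent.S24.FF.exists_sub_ord_pos K y hy v hf

/-- The principal divisor of `f` (`0` for `f = 0`, because `ord 0 = 0`). -/
noncomputable def divf (f : F) : Divisor K F :=
  Finsupp.onFinset (finite_ord_ne_zero (K := K) f).toFinset (fun v => v.ord f)
    (fun v hv => by simpa using hv)

@[simp] theorem divf_apply (f : F) (v : Place K F) : divf (K := K) f v = v.ord f := rfl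

theorem degree_divf (f : F) : Divisor.degree (divf (K := K) f) = 0 := by
  obtain ⟨y, hy, hfin⟩ := IsFF.exists_gen (K := K) (F := F)
  rcases eq_or_ne f 0 with rfl | hf
  · have : divf (K := K) (0 : F) = 0 := by ext v; simp
    rw [this, map_zero]
  · exact Fermat.Agent.S24.FF.degree_eq_zero_of_principal K y hy hf _ (fun v => rfl)

theorem degree_eq_sum (D : Divisor K F) : Divisor.degree D = D.sum fun _ n => n := by
  induction D using Finsupp.induction_linear with
  | zero => simp
  | add D E hD hE =>
    rw [map_add, hD, hE, Finsupp.sum_add_index' (by simp) (by simp)]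
  | single v n => simp [deg_eq_one]

end Wrappers

/-- The Riemann-Roch space `L(D) = {f | f = 0 ∨ div f + D ≥ 0}`. -/
def LSp (D : Divisor K F) : Submodule K F where
  carrier := {f | f = 0 ∨ ∀ v : Place K F, 0 ≤ v.ord f + D v}
  zero_mem' := Or.inl rfl
  add_mem' := by
    rintro a b (rfl | ha) (rfl | hb)
    · left; simp
    · right; simpa using hb
    · right; simpa using ha
    · by_cases hab : a + b = 0
      · exact Or.inl hab
      · right
        intro v
        by_cases ha0 : a = 0
        · subst ha0; simpa using hb v
        by_cases hb0 : b = 0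
        · subst hb0; simpa using ha v
        have := ord_add v ha0 hb0 hab
        have h1 := ha v
        have h2 := hb v
        rcases min_le_iff.mp this with h | h <;> omega
  smul_mem' := by
    rintro c a (rfl | ha)
    · left; simp
    · by_cases hc : c = 0
      · left; simp [hc]
      by_cases ha0 : a = 0
      · left; simp [ha0]
      right
      intro v
      have hc' : algebraMap K F c ≠ 0 := by simpa using hc
      rw [Algebra.smul_def, v.ord_mul hc' ha0, ord_algebraMap, zero_add]
      exact ha v

theorem mem_LSp {D : Divisor K F} {f : F} :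
    f ∈ LSp D ↔ f = 0 ∨ ∀ v : Place K F, 0 ≤ v.ord f + D v := Iff.rfl

/-- dimension of `L(D)` -/
noncomputable def ell (D : Divisor K F) : ℕ := Module.finrank K (LSp D)

/-- The value `f(P) ∈ K` of a function regular at the place `v` (junk otherwise). -/
noncomputable def val (v : Place K F) (f : F) : K :=
  Classical.epsilon fun c : K => f = algebraMap K F c ∨ 0 < v.ord (f - algebraMap K F c)

/-- The divisor `P` (a single place with multiplicity one). -/
noncomputable abbrev pdiv (v : Place K F) : Divisor K F := Finsupp.single v 1

/-- The divisor of a tuple of places. -/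
noncomputable def tdiv {d : ℕ} (P : Fin d → Place K F) : Divisor K F := ∑ j, pdiv (P j)

end Fermat.Agent.S17.FF
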