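import Fermat.Agent.S17.FF.Defs
import Fermat.Prelude.Def_AlgebraicCurve_BaseChangeGalois

/-! # S17 / A3 : evaluation of functions at places -/

set_option autoImplicit false

open AlgebraicCurve IntermediateField

namespace Fermat.Agent.S17.FF

variable {K F : Type*} [Field K] [Field F] [Algebra K F]

namespace Val

open Fermat.Agent.S24.FF

/-- `x` lies in the maximal ideal of the place `v`. -/
def Small (v : Place K F) (x : F) : Prop := x = 0 ∨ 0 < v.ord x

theorem small_zero (v : Place K F) : Small v 0 := Or.inl rfl

theorem Small.ord_nonneg {v : Place K F} {x : F} (h : Small v x) : 0 ≤ v.ord x := by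
  rcases h with rfl | h
  · simp
  · exact h.le

theorem Small.add {v : Place K F} {x y : F} (hx : Small v x) (hy : Small v y) :
    Small v (x + y) := by
  rcases hx with rfl | hx
  · simpa using hy
  rcases hy with rfl | hy
  · rw [add_zero]; exact Or.inr hx
  by_cases hxy : x + y = 0
  · exact Or.inl hxy
  right
  have := ord_add v (ne_zero_of_ord_ne_zero v hx.ne') (ne_zero_of_ord_ne_zero v hy.ne') hxy
  exact lt_of_lt_of_le (lt_min hx hy) this

theorem Small.neg {v : Place K F} {x : F} (hx : Small v x) : Small v (-x) := by
  rcases hx with rfl | hx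
  · simpa using small_zero v
  · right; rwa [ord_neg]

theorem Small.sub {v : Place K F} {x y : F} (hx : Small v x) (hy : Small v y) :
    Small v (x - y) := by
  rw [sub_eq_add_neg]; exact hx.add hy.neg

theorem Small.mul {v : Place K F} {x y : F} (hx : Small v x) (hy : 0 ≤ v.ord y) :
    Small v (x * y) := by
  rcases hx with rfl | hx
  · left; simp
  by_cases hy0 : y = 0
  · left; simp [hy0]
  right
  rw [v.ord_mul (ne_zero_of_ord_ne_zero v hx.ne') hy0]
  omega

theorem small_algebraMap_iff (v : Place K F) (c : K) : Small v (algebraMap K F c) ↔ c = 0 := by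
  constructor
  · rintro (h | h)
    · simpa using h
    · rw [ord_algebraMap] at h; exact absurd h (lt_irrefl _)
  · rintro rfl; left; simp

theorem small_sub_iff (v : Place K F) (f : F) (c : K) :
    Small v (f - algebraMap K F c) ↔
      (f = algebraMap K F c ∨ 0 < v.ord (f - algebraMap K F c)) := by
  unfold Small
  rw [sub_eq_zero]

theorem eq_of_small {v : Place K F} {f : F} {c c' : K} (h : Small v (f - algebraMap K F c))
    (h' : Small v (f - algebraMap K F c')) : c = c' := by
  have h1 : Small v (algebraMap K F (c - c')) := by
    have := h'.sub h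
    rwa [show f - algebraMap K F c' - (f - algebraMap K F c) = algebraMap K F (c - c') by
      rw [map_sub]; ring] at this
  exact sub_eq_zero.1 ((small_algebraMap_iff v _).1 h1)

end Val

open Val Fermat.Agent.S24.FF in
theorem val_eq_of {v : Place K F} {f : F} {c : K}
    (h : f = algebraMap K F c ∨ 0 < v.ord (f - algebraMap K F c)) : val v f = c := by
  have hs : f = algebraMap K F (val v f) ∨ 0 < v.ord (f - algebraMap K F (val v f)) :=
    Classical.epsilon_spec (p := fun c : K => f = algebraMap K F c ∨ 0 < v.ord (f - algebraMap K F c))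
      ⟨c, h⟩
  exact eq_of_small ((small_sub_iff v f _).2 hs) ((small_sub_iff v f _).2 h)

theorem Val.val_eq_of_small {v : Place K F} {f : F} {c : K}
    (h : Val.Small v (f - algebraMap K F c)) : val v f = c :=
  val_eq_of ((Val.small_sub_iff v f c).1 h)

@[simp] theorem val_algebraMap (v : Place K F) (c : K) : val v (algebraMap K F c) = c :=
  val_eq_of (Or.inl rfl)

@[simp] theorem val_zero (v : Place K F) : val v (0 : F) = 0 := by
  simpa using val_algebraMap v (0 : K)

@[simp] theorem val_one (v : Place K F) : val v (1 : F) = 1 := by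
  simpa using val_algebraMap v (1 : K)

variable [IsAlgClosed K] [CharZero K] [IsFF K F]

theorem val_spec (v : Place K F) {f : F} (hf : 0 ≤ v.ord f) :
    f = algebraMap K F (val v f) ∨ 0 < v.ord (f - algebraMap K F (val v f)) :=
  Classical.epsilon_spec (p := fun c : K => f = algebraMap K F c ∨ 0 < v.ord (f - algebraMap K F c))
    (exists_sub_ord_pos v hf)

namespace Val

theorem small_sub_val (v : Place K F) {f : F} (hf : 0 ≤ v.ord f) :
    Small v (f - algebraMap K F (val v f)) := (small_sub_iff v f _).2 (val_spec v hf)

end Val

open Val Fermat.Agent.S24.FF in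
theorem val_add (v : Place K F) {f g : F} (hf : 0 ≤ v.ord f) (hg : 0 ≤ v.ord g) :
    val v (f + g) = val v f + val v g := by
  apply val_eq_of_small
  have := (small_sub_val v hf).add (small_sub_val v hg)
  rwa [show f - algebraMap K F (val v f) + (g - algebraMap K F (val v g))
    = f + g - algebraMap K F (val v f + val v g) by rw [map_add]; ring] at this

open Val Fermat.Agent.S24.FF in
theorem val_mul (v : Place K F) {f g : F} (hf : 0 ≤ v.ord f) (hg : 0 ≤ v.ord g) :
    val v (f * g) = val v f * val v g := by
  apply val_eq_of_small
  have h1 := (small_sub_val v hf).mul hg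
  have h2 := (small_sub_val v hg).mul (y := algebraMap K F (val v f)) (by rw [ord_algebraMap])
  have := h1.add h2
  rwa [show (f - algebraMap K F (val v f)) * g
      + (g - algebraMap K F (val v g)) * algebraMap K F (val v f)
    = f * g - algebraMap K F (val v f * val v g) by rw [map_mul]; ring] at this

open Val Fermat.Agent.S24.FF in
theorem val_smul (v : Place K F) (c : K) {f : F} (hf : 0 ≤ v.ord f) :
    val v (c • f) = c * val v f := by
  rw [Algebra.smul_def, val_mul v (by rw [ord_algebraMap]) hf, val_algebraMap]

open Val Fermat.Agent.S24.FF in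
theorem val_eq_zero_iff (v : Place K F) {f : F} (hf : 0 ≤ v.ord f) :
    val v f = 0 ↔ f = 0 ∨ 0 < v.ord f := by
  constructor
  · intro h
    have := small_sub_val v hf
    rwa [h, map_zero, sub_zero] at this
  · intro h
    apply val_eq_of_small
    rwa [map_zero, sub_zero]

open Val Fermat.Agent.S24.FF in
theorem val_inv (v : Place K F) {f : F} (hf : v.ord f = 0) : val v f⁻¹ = (val v f)⁻¹ := by
  rcases eq_or_ne f 0 with rfl | hf0
  · simp
  have h1 : v.ord f⁻¹ = 0 := by rw [v.ord_inv, hf, neg_zero]
  have h2 := val_mul v hf.ge h1.ge
  rw [mul_inv_cancel₀ hf0, val_one] at h2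
  exact eq_inv_of_mul_eq_one_right h2.symm

/-- `val v` as a `K`-algebra hom on the valuation ring. -/
noncomputable def valHom (v : Place K F) : v.toValuationSubring →+* K where
  toFun f := val v (f : F)
  map_one' := by simp
  map_mul' f g := val_mul v (Fermat.Agent.S24.FF.ord_nonneg_of_mem v f.2)
    (Fermat.Agent.S24.FF.ord_nonneg_of_mem v g.2)
  map_zero' := by simp
  map_add' f g := val_add v (Fermat.Agent.S24.FF.ord_nonneg_of_mem v f.2)
    (Fermat.Agent.S24.FF.ord_nonneg_of_mem v g.2)

/-- Equivariance under semilinear automorphisms (for functions regular at `v`; for non-regular `f` both sides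
are the junk value of `Classical.epsilon`, which need not be fixed by `baseAut g`). -/
theorem val_smul_semilinear (g : SemilinearAut K F) (v : Place K F) {f : F} (hf : 0 ≤ v.ord f) :
    val (g • v) (g • f) = SemilinearAut.baseAut g (val v f) := by
  apply val_eq_of
  rcases val_spec v hf with h | h
  · left
    conv_lhs => rw [h]
    rw [SemilinearAut.smul_algebraMap]
  · right
    rw [← SemilinearAut.smul_algebraMap, ← smul_sub, SemilinearAut.ord_smul]
    exact h

end Fermat.Agent.S17.FF
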