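import Fermat.Agent.S17.FF.Riemann
import Fermat.Agent.S17.FF.Val

/-! # S17 / A5, A6 : base point freeness, avoidance, the pencil trick -/

set_option autoImplicit false

open AlgebraicCurve IntermediateField

namespace Fermat.Agent.S17.FF

variable {K F : Type*} [Field K] [Field F] [Algebra K F] [IsAlgClosed K] [CharZero K] [IsFF K F]

namespace Bpf

variable (K F) in
theorem nonempty_place : Nonempty (Place K F) := by
  obtain ⟨y, hy, hfin⟩ := IsFF.exists_gen (K := K) (F := F)
  have h := Fermat.Agent.S24.FF.sum_ord_zeroPlaces K y hy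
  have hpos : 0 < Module.finrank K⟮y⟯ F := Module.finrank_pos
  by_contra hne
  rw [not_nonempty_iff] at hne
  have h0 : (Fermat.Agent.S24.FF.zeroPlaces_finite K y hy).toFinset = ∅ :=
    Finset.eq_empty_of_isEmpty _
  rw [h0, Finset.sum_empty] at h
  have : (Module.finrank K⟮y⟯ F : ℤ) = 0 := h.symm
  omega

theorem degree_pdiv (v : Place K F) : Divisor.degree (pdiv v) = 1 := by
  rw [Divisor.degree_single, deg_eq_one]
  simp

omit [IsAlgClosed K] [IsFF K F] in
/-- avoidance of finitely many subspaces not containing `V`. -/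
theorem exists_mem_notMem (V : Submodule K F) (s : Finset (Submodule K F))
    (h : ∀ W ∈ s, ¬ V ≤ W) : ∃ f ∈ V, ∀ W ∈ s, f ∉ W := by
  classical
  have htop : (⊤ : Submodule K V) ∉ s.image (fun W => W.comap V.subtype) := by
    intro hmem
    obtain ⟨W, hW, hWtop⟩ := Finset.mem_image.mp hmem
    exact h W hW (Submodule.comap_subtype_eq_top.mp hWtop)
  have hne := Subspace.biUnion_ne_univ_of_top_notMem htop
  rw [Ne, Set.eq_univ_iff_forall] at hne
  push Not at hne
  obtain ⟨x, hx⟩ := hne
  refine ⟨x, x.2, fun W hW hxW => hx ?_⟩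
  simp only [Set.mem_iUnion]
  exact ⟨W.comap V.subtype, Finset.mem_image_of_mem _ hW, hxW⟩

end Bpf

open Bpf

theorem ell_sub_pdiv {D : Divisor K F} (h : rc K F + 1 ≤ Divisor.degree D) (v : Place K F) :
    ell (D - pdiv v) + 1 = ell D := by
  have h1 := riemann_eq (D := D) (by omega)
  have h2 := riemann_eq (D := D - pdiv v) (by rw [map_sub, degree_pdiv]; omega)
  rw [map_sub, degree_pdiv] at h2
  omega

/-- `L(D)` has no base points, simultaneously on a finite set (`K` is infinite: a vector space is not a finite union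
of proper subspaces, Mathlib `Subspace.biUnion_ne_univ_of_top_notMem`). -/
theorem exists_mem_LSp_ord_eq {D : Divisor K F} (h : rc K F + 1 ≤ Divisor.degree D)
    (T : Finset (Place K F)) : ∃ f ∈ LSp D, f ≠ 0 ∧ ∀ v ∈ T, v.ord f = - D v := by
  classical
  obtain ⟨f, hfD, hf⟩ := exists_mem_notMem (LSp D)
    (insert ⊥ (T.image fun v => LSp (D - pdiv v))) (by
      intro W hW hle
      rcases Finset.mem_insert.mp hW with rfl | hW
      · obtain ⟨v₀⟩ := nonempty_place K F
        have h1 := ell_sub_pdiv h v₀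
        have h2 : LSp D = ⊥ := le_bot_iff.mp hle
        have h3 : ell D = 0 := by rw [ell, h2, finrank_bot]
        omega
      · obtain ⟨v, -, rfl⟩ := Finset.mem_image.mp hW
        have h1 := ell_sub_pdiv h v
        have h2 : ell D ≤ ell (D - pdiv v) := Submodule.finrank_mono hle
        omega)
  have hf0 : f ≠ 0 := by
    intro h0
    exact hf ⊥ (Finset.mem_insert_self _ _) (by simp [h0])
  refine ⟨f, hfD, hf0, fun v hv => ?_⟩
  have hnot := hf _ (Finset.mem_insert_of_mem (Finset.mem_image_of_mem _ hv))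
  have hD := (mem_LSp.mp hfD).resolve_left hf0
  rw [mem_LSp] at hnot
  push Not at hnot
  obtain ⟨w, hw⟩ := hnot.2
  by_cases hwv : w = v
  · subst hwv
    have := hD w
    simp only [Finsupp.coe_sub, Pi.sub_apply, Finsupp.single_eq_same] at hw
    omega
  · have := hD w
    rw [Finsupp.sub_apply, Finsupp.single_eq_of_ne hwv] at hw
    omega

/-- Base-point-free pencil trick. `s₁, s₂ ∈ L(A)` without common zero; `0 → L(B-A) → L(B)² → L(A+B)`;
dimension count with `riemann_eq`. -/
theorem LSp_mul_LSp {A B : Divisor K F} (hA : rc K F + 1 ≤ Divisor.degree A)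
    (hB : rc K F + Divisor.degree A ≤ Divisor.degree B) : LSp A * LSp B = LSp (A + B) := by
  classical
  have hrc := rc_nonneg (K := K) (F := F)
  obtain ⟨s₁, hs₁A, hs₁0, -⟩ := exists_mem_LSp_ord_eq hA ∅
  obtain ⟨s₂, hs₂A, hs₂0, hs₂⟩ := exists_mem_LSp_ord_eq hA (divf s₁ + A).support
  have hcover : ∀ v : Place K F, v.ord s₁ = - A v ∨ v.ord s₂ = - A v := by
    intro v
    by_cases hv : v ∈ (divf s₁ + A).support
    · exact Or.inr (hs₂ v hv)
    · left
      have : (divf (K := K) s₁ + A) v = 0 := Finsupp.notMem_support_iff.mp hv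
      rw [Finsupp.add_apply, divf_apply] at this
      omega
  let φ : (LSp B × LSp B) →ₗ[K] F :=
    ((LinearMap.mulLeft K s₁).comp (LSp B).subtype).coprod
      ((LinearMap.mulLeft K s₂).comp (LSp B).subtype)
  have hφ : ∀ x : LSp B × LSp B, φ x = s₁ * (x.1 : F) + s₂ * (x.2 : F) := fun x => by
    simp [φ]
  have hle1 : LinearMap.range φ ≤ LSp A * LSp B := by
    rintro _ ⟨x, rfl⟩
    rw [hφ]
    exact add_mem (Submodule.mul_mem_mul hs₁A x.1.2) (Submodule.mul_mem_mul hs₂A x.2.2)
  have hle2 : LSp A * LSp B ≤ LSp (A + B) :=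
    Submodule.mul_le.mpr fun f hf g hg => mul_mem_LSp hf hg
  -- the kernel embeds in `L(B - A)`
  let ψ₀ : LinearMap.ker φ →ₗ[K] F :=
    (LinearMap.mulLeft K s₂⁻¹).comp ((LSp B).subtype.comp
      ((LinearMap.fst K (LSp B) (LSp B)).comp (LinearMap.ker φ).subtype))
  have hψ₀ : ∀ x : LinearMap.ker φ, ψ₀ x = s₂⁻¹ * ((x : LSp B × LSp B).1 : F) := fun x => by
    simp [ψ₀]
  have hmem : ∀ x : LinearMap.ker φ, ψ₀ x ∈ LSp (B - A) := by
    intro x
    rw [hψ₀]
    have hx : s₁ * ((x : LSp B × LSp B).1 : F) + s₂ * ((x : LSp B × LSp B).2 : F) = 0 := by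
      rw [← hφ]; exact x.2
    set u₁ : F := ((x : LSp B × LSp B).1 : F) with hu₁
    set u₂ : F := ((x : LSp B × LSp B).2 : F) with hu₂
    have hu₁B : u₁ ∈ LSp B := (x : LSp B × LSp B).1.2
    have hu₂B : u₂ ∈ LSp B := (x : LSp B × LSp B).2.2
    by_cases h1 : u₁ = 0
    · rw [h1, mul_zero]; exact zero_mem _
    have h2 : u₂ ≠ 0 := by
      intro h2
      rw [h2, mul_zero, add_zero] at hx
      exact (mul_ne_zero hs₁0 h1) hx
    right
    intro v
    have e1 := (mem_LSp.mp hu₁B).resolve_left h1 v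
    have e2 := (mem_LSp.mp hu₂B).resolve_left h2 v
    have e3 : v.ord s₁ + v.ord u₁ = v.ord s₂ + v.ord u₂ := by
      rw [← v.ord_mul hs₁0 h1, ← v.ord_mul hs₂0 h2, eq_neg_of_add_eq_zero_left hx,
        Fermat.Agent.S24.FF.ord_neg]
    rw [v.ord_mul (inv_ne_zero hs₂0) h1, v.ord_inv, Finsupp.sub_apply]
    rcases hcover v with h | h <;> omega
  let ψ : LinearMap.ker φ →ₗ[K] LSp (B - A) := ψ₀.codRestrict _ hmem
  have hψinj : Function.Injective ψ := by
    intro x y hxy
    have h0 : ψ₀ x = ψ₀ y := congrArg Subtype.val hxy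
    rw [hψ₀, hψ₀] at h0
    have h1 : ((x : LSp B × LSp B).1 : F) = ((y : LSp B × LSp B).1 : F) :=
      mul_left_cancel₀ (inv_ne_zero hs₂0) h0
    have hx2 : s₁ * ((x : LSp B × LSp B).1 : F) + s₂ * ((x : LSp B × LSp B).2 : F) = 0 := by
      rw [← hφ]; exact x.2
    have hy2 : s₁ * ((y : LSp B × LSp B).1 : F) + s₂ * ((y : LSp B × LSp B).2 : F) = 0 := by
      rw [← hφ]; exact y.2
    have h2 : ((x : LSp B × LSp B).2 : F) = ((y : LSp B × LSp B).2 : F) := by
      apply mul_left_cancel₀ hs₂0
      rw [h1] at hx2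
      linear_combination hx2 - hy2
    apply Subtype.ext
    apply Prod.ext
    · exact Subtype.ext h1
    · exact Subtype.ext h2
  have hker : Module.finrank K (LinearMap.ker φ) ≤ ell (B - A) :=
    LinearMap.finrank_le_finrank_of_injective hψinj
  have hrn := LinearMap.finrank_range_add_finrank_ker φ
  rw [Module.finrank_prod] at hrn
  have r1 := riemann_eq (D := B) (by omega)
  have r2 := riemann_eq (D := B - A) (by rw [map_sub]; omega)
  have r3 := riemann_eq (D := A + B) (by rw [map_add]; omega)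
  rw [map_sub] at r2
  rw [map_add] at r3
  have hB' : Module.finrank K (LSp B) = ell B := rfl
  have hfin : Module.finrank K (LSp (A + B)) ≤ Module.finrank K (LinearMap.range φ) := by
    have : Module.finrank K (LSp (A + B)) = ell (A + B) := rfl
    omega
  have heq : LinearMap.range φ = LSp (A + B) :=
    Submodule.eq_of_le_of_finrank_le (hle1.trans hle2) hfin
  exact le_antisymm hle2 (heq ▸ hle1)

end Fermat.Agent.S17.FF
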