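import Fermat.Agent.S17.FF.Riemann

/-! # S17 / A9 : effective and minimal representatives of divisor classes, relative to a base place `o` -/

set_option autoImplicit false

open AlgebraicCurve IntermediateField

namespace Fermat.Agent.S17.FF

variable {K F : Type*} [Field K] [Field F] [Algebra K F] [IsAlgClosed K] [CharZero K] [IsFF K F]

/-- linear equivalence -/
def LinEq (D E : Divisor K F) : Prop := Divisor.IsPrincipal (D - E)

namespace MinRep

theorem degree_add_nsmul (o : Place K F) (D : Divisor K F) (n : ℕ) :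
    Divisor.degree (D + n • pdiv o) = Divisor.degree D + n := by
  rw [map_add, map_nsmul, LBasic.degree_pdiv]
  simp

/-- from a nonzero element of `L(D + n o)` to an effective representative -/
theorem rep_of_mem (o : Place K F) (D : Divisor K F) (hD : Divisor.degree D = 0) (n : ℕ) {f : F}
    (hf : f ≠ 0) (hfD : f ∈ LSp (D + n • pdiv o)) :
    0 ≤ divf f + (D + n • pdiv o) ∧ Divisor.degree (divf f + (D + n • pdiv o)) = n ∧
      LinEq (divf f + (D + n • pdiv o) - n • pdiv o) D := by
  refine ⟨(mem_LSp_iff_divf hf).mp hfD, ?_, ?_⟩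
  · rw [map_add, degree_divf, degree_add_nsmul, hD]
    simp
  · rw [LinEq, isPrincipal_iff]
    exact ⟨f, hf, by abel⟩

/-- from an effective representative to a nonzero element of `L(D + n o)` -/
theorem mem_of_rep (o : Place K F) (D : Divisor K F) (n : ℕ) {E : Divisor K F} (hE : 0 ≤ E)
    (h : LinEq (E - n • pdiv o) D) :
    ∃ f : F, f ≠ 0 ∧ f ∈ LSp (D + n • pdiv o) ∧ E = divf f + (D + n • pdiv o) := by
  rw [LinEq, isPrincipal_iff] at h
  obtain ⟨f, hf, hfE⟩ := h
  have hE' : E = divf f + (D + n • pdiv o) := by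
    rw [← hfE]; abel
  exact ⟨f, hf, (mem_LSp_iff_divf hf).mpr (hE' ▸ hE), hE'⟩

theorem divf_smul {c : K} (hc : c ≠ 0) (f : F) : divf (K := K) (c • f) = divf f := by
  ext v
  rw [divf_apply, divf_apply]
  rcases eq_or_ne f 0 with rfl | hf
  · simp
  · have hc' : algebraMap K F c ≠ 0 := by simpa using hc
    rw [Algebra.smul_def, v.ord_mul hc' hf, Fermat.Agent.S24.FF.ord_algebraMap, zero_add]

end MinRep

open MinRep

theorem exists_effective_rep (o : Place K F) (D : Divisor K F) (hD : Divisor.degree D = 0) {n : ℕ}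
    (hn : genus K F ≤ n) :
    ∃ E : Divisor K F, 0 ≤ E ∧ Divisor.degree E = n ∧ LinEq (E - n • pdiv o) D := by
  have h1 := riemann_le (D + n • pdiv o)
  rw [degree_add_nsmul, hD] at h1
  have h2 : 0 < ell (D + n • pdiv o) := by omega
  obtain ⟨f, hf, hfD⟩ := Riemann.exists_ne_zero_mem_of_ell_pos h2
  exact ⟨_, rep_of_mem o D hD n hf hfD⟩

/-- The minimal representative: `d` minimal with `l(D + d o) > 0`.  Then `l(D + d o) = 1`, so the effective divisor
`E ~ D + d o` is unique, and `o ∉ supp E`. -/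
theorem exists_minRep (o : Place K F) (D : Divisor K F) (hD : Divisor.degree D = 0) :
    ∃ (d : ℕ) (E : Divisor K F), 0 ≤ E ∧ Divisor.degree E = d ∧ d ≤ genus K F ∧ E o = 0 ∧
      LinEq (E - d • pdiv o) D ∧ ell E = 1 ∧
      ∀ (d' : ℕ) (E' : Divisor K F), 0 ≤ E' → Divisor.degree E' = d' → LinEq (E' - d' • pdiv o) D →
        d ≤ d' ∧ (d' = d → E' = E) := by
  classical
  have hex : ∃ d : ℕ, 0 < ell (D + d • pdiv o) := by
    refine ⟨genus K F, ?_⟩
    have h1 := riemann_le (D + genus K F • pdiv o)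
    rw [degree_add_nsmul, hD] at h1
    omega
  set d := Nat.find hex with hd
  have hdpos : 0 < ell (D + d • pdiv o) := Nat.find_spec hex
  have hdmin : ∀ m < d, ell (D + m • pdiv o) = 0 := fun m hm => by
    have := Nat.find_min hex hm
    omega
  have hdg : d ≤ genus K F := by
    apply Nat.find_min' hex
    have h1 := riemann_le (D + genus K F • pdiv o)
    rw [degree_add_nsmul, hD] at h1
    omega
  obtain ⟨f, hf, hfD⟩ := Riemann.exists_ne_zero_mem_of_ell_pos hdpos
  obtain ⟨hE0, hEd, hElin⟩ := rep_of_mem o D hD d hf hfD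
  set E := divf f + (D + d • pdiv o) with hE
  -- `l(D + d o) = 1`
  have hell : ell (D + d • pdiv o) = 1 := by
    rcases Nat.eq_zero_or_pos d with h0 | h0
    · have h1 := ell_le_degree_add_one (D := D + d • pdiv o) (by rw [degree_add_nsmul, hD]; omega)
      rw [degree_add_nsmul, hD, h0] at h1
      rw [h0] at hdpos ⊢
      simp only [CharP.cast_eq_zero, add_zero, zero_add] at h1
      omega
    · have h1 := ell_add_pdiv_le (D + (d - 1) • pdiv o) o
      have h2 : D + (d - 1) • pdiv o + pdiv o = D + d • pdiv o := by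
        rw [add_assoc, ← succ_nsmul, Nat.sub_add_cancel h0]
      rw [h2, hdmin (d - 1) (by omega)] at h1
      omega
  have hellE : ell E = 1 := by
    rw [hE, add_comm, ell_add_divf _ hf, hell]
  refine ⟨d, E, hE0, hEd, hdg, ?_, hElin, hellE, ?_⟩
  · -- `o ∉ supp E`
    by_contra hne
    have hpos : 0 < E o := lt_of_le_of_ne (hE0 o) (Ne.symm hne)
    have hdeg := LBasic.le_degree hE0 o
    rw [hEd] at hdeg
    have hd1 : 0 < d := by omega
    have hsub := LBasic.sub_pdiv_nonneg hE0 hpos
    have h2 : E - pdiv o = divf f + (D + (d - 1) • pdiv o) := by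
      have : d • pdiv o = (d - 1) • pdiv o + pdiv o := by
        rw [← succ_nsmul, Nat.sub_add_cancel hd1]
      rw [hE, this]; abel
    rw [h2] at hsub
    have hmem : f ∈ LSp (D + (d - 1) • pdiv o) := (mem_LSp_iff_divf hf).mpr hsub
    have h0 := hdmin (d - 1) (by omega)
    have hbot : LSp (D + (d - 1) • pdiv o) = ⊥ := Submodule.finrank_eq_zero.mp h0
    rw [hbot, Submodule.mem_bot] at hmem
    exact hf hmem
  · intro d' E' hE'0 hE'd hE'lin
    obtain ⟨h, hh, hhD, hE'⟩ := mem_of_rep o D d' hE'0 hE'lin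
    have hpos' : 0 < ell (D + d' • pdiv o) := by
      rw [ell, Module.finrank_pos_iff_exists_ne_zero]
      exact ⟨⟨h, hhD⟩, fun h0 => hh (congrArg Subtype.val h0)⟩
    refine ⟨Nat.find_min' hex hpos', ?_⟩
    rintro rfl
    have hone : Module.finrank K (LSp (D + d • pdiv o)) = 1 := hell
    have hne : (⟨f, hfD⟩ : LSp (D + d • pdiv o)) ≠ 0 := fun h0 => hf (congrArg Subtype.val h0)
    obtain ⟨c, hc⟩ := (finrank_eq_one_iff_of_nonzero' _ hne).mp hone ⟨h, hhD⟩
    have hc' : c • f = h := congrArg Subtype.val hc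
    have hc0 : c ≠ 0 := by
      rintro rfl
      rw [zero_smul] at hc'
      exact hh hc'.symm
    rw [hE', ← hc', divf_smul hc0]

end Fermat.Agent.S17.FF
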