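import Fermat.Agent.S17.FF.Val
import Fermat.Agent.S24.FF.FiniteOver
import Fermat.Agent.S24.FF.PlacePrime

/-! # S17 / A4 : every nontrivial valuation subring containing the constants is a place -/

set_option autoImplicit false

open AlgebraicCurve IntermediateField

namespace Fermat.Agent.S17.FF

variable {K F : Type*} [Field K] [Field F] [Algebra K F] [IsAlgClosed K] [CharZero K] [IsFF K F]

open Fermat.Agent.S24.FF IsDedekindDomain in
/-- Proof: pick `x ∉ O`, `t = x⁻¹ ∈ m_O`, transcendental; `O ⊇ K[t]`, integrally closed, so `O ⊇ Sy K t`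
(Dedekind, `S24.FF.Setup`); `p = m_O ∩ Sy` is a nonzero prime; the valuation ring of `placeOf K t p` is contained
in `O`; a DVR is a maximal proper subring of its fraction field (cf. `S24.FF.eq_of_le`). -/
theorem exists_place_of_valuationSubring (O : ValuationSubring F)
    (hK : ∀ a : K, algebraMap K F a ∈ O) (hO : O ≠ ⊤) :
    ∃ v : Place K F, v.toValuationSubring = O := by
  -- an element outside `O`
  obtain ⟨x, hx⟩ : ∃ x : F, x ∉ O := by
    by_contra hcon
    push Not at hcon
    exact hO (SetLike.ext fun g => ⟨fun _ => ValuationSubring.mem_top g, fun _ => hcon g⟩)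
  have hx0 : x ≠ 0 := fun h => hx (h ▸ O.zero_mem)
  set t : F := x⁻¹ with ht
  have htO : t ∈ O := (O.mem_or_inv_mem x).resolve_left hx
  have ht0 : t ≠ 0 := inv_ne_zero hx0
  have htr : Transcendental K t := by
    intro halg
    obtain ⟨c, hc⟩ := DegOne.exists_algebraMap_eq_of_isAlgebraic K halg
    apply hx
    have : x = algebraMap K F c⁻¹ := by rw [map_inv₀, hc, ht, inv_inv]
    rw [this]
    exact hK _
  obtain ⟨y, hy, hfin⟩ := IsFF.exists_gen (K := K) (F := F)
  have : FiniteDimensional K⟮t⟯ F := finiteDimensional_of_transcendental K y htr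
  -- `K[t] ⊆ O`
  have hRy : ∀ r : Ry K t, (r : F) ∈ O := by
    let A : Subalgebra K F := { O.toSubring with algebraMap_mem' := hK }
    have hA : Algebra.adjoin K {t} ≤ A := Algebra.adjoin_le (by
      intro z hz
      rw [Set.mem_singleton_iff] at hz
      subst hz
      exact htO)
    exact fun r => hA r.2
  -- the integral closure is contained in `O`
  have hSy : ∀ s : Sy K t, (s : F) ∈ O := by
    intro s
    let ι : Ry K t →+* O :=
      { toFun := fun r => ⟨(r : F), hRy r⟩
        map_one' := rfl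
        map_mul' := fun _ _ => rfl
        map_zero' := rfl
        map_add' := fun _ _ => rfl }
    obtain ⟨p, hp, hpf⟩ := s.2
    have hint : IsIntegral O (s : F) := by
      refine ⟨p.map ι, hp.map ι, ?_⟩
      rw [Polynomial.eval₂_map]
      have : (algebraMap O F).comp ι = algebraMap (Ry K t) F := rfl
      rw [this]
      exact hpf
    obtain ⟨a, ha⟩ := (IsIntegrallyClosed.isIntegral_iff (R := O) (K := F)).mp hint
    rw [← ha]
    exact a.2
  let j : Sy K t →+* O :=
    { toFun := fun s => ⟨(s : F), hSy s⟩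
      map_one' := rfl
      map_mul' := fun _ _ => rfl
      map_zero' := rfl
      map_add' := fun _ _ => rfl }
  let P₀ : Ideal (Sy K t) := (IsLocalRing.maximalIdeal O).comap j
  have hprime : P₀.IsPrime := Ideal.comap_isPrime _ _
  have hnotmem : ∀ s : Sy K t, s ∉ P₀ → IsUnit (j s) := by
    intro s hs
    by_contra hu
    exact hs ((IsLocalRing.mem_maximalIdeal _).mpr hu)
  have hinv : ∀ s : Sy K t, s ∉ P₀ → ((s : F))⁻¹ ∈ O := by
    intro s hs
    obtain ⟨u, hu⟩ := hnotmem s hs
    have h3 : ((u : O) : F) * (((u⁻¹ : Oˣ) : O) : F) = 1 := by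
      have h := congrArg (Subtype.val) (u.mul_inv)
      rwa [MulMemClass.coe_mul, OneMemClass.coe_one] at h
    have h4 : ((u : O) : F) = (s : F) := by rw [hu]; rfl
    rw [h4] at h3
    rw [← eq_inv_of_mul_eq_one_right h3]
    exact ((u⁻¹ : Oˣ) : O).2
  have hne : P₀ ≠ ⊥ := by
    intro hbot
    apply hO
    refine SetLike.ext fun g => ⟨fun _ => ValuationSubring.mem_top g, fun _ => ?_⟩
    obtain ⟨a, b, hb, hab⟩ := IsFractionRing.div_surjective (A := Sy K t) g
    rw [← hab, div_eq_mul_inv]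
    have hb0 : b ≠ 0 := nonZeroDivisors.ne_zero hb
    have hbP : b ∉ P₀ := by rw [hbot]; simpa using hb0
    exact mul_mem (j a).2 (hinv b hbP)
  set v : Place K F := placeOf K t ⟨P₀, hprime, hne⟩ with hv
  have hle : v.toValuationSubring ≤ O := by
    intro f hf
    have hf' : (HeightOneSpectrum.valuation F
        (⟨P₀, hprime, hne⟩ : HeightOneSpectrum (Sy K t))) f ≤ 1 :=
      (Valuation.mem_valuationSubring_iff _ _).mp hf
    obtain ⟨n, d, hnd⟩ := HeightOneSpectrum.exists_primeCompl_mul_eq_of_integer _ f hf'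
    have hd : (d : Sy K t) ∉ P₀ := d.2
    have hd0 : (((d : Sy K t)) : F) ≠ 0 := by
      intro h0
      apply hd
      have : (d : Sy K t) = 0 := by exact_mod_cast h0
      rw [this]; exact zero_mem _
    have : f = (n : F) * (((d : Sy K t)) : F)⁻¹ := by
      rw [eq_mul_inv_iff_mul_eq₀ hd0]
      exact hnd
    rw [this]
    exact mul_mem (j n).2 (hinv _ hd)
  refine ⟨v, le_antisymm hle fun f hf => ?_⟩
  by_contra hfv
  have hneg : v.ord f < 0 := by
    by_contra hh
    exact hfv (mem_of_ord_nonneg v (not_lt.mp hh))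
  have hf0 : f ≠ 0 := ne_zero_of_ord_ne_zero v hneg.ne
  apply hO
  refine SetLike.ext fun g => ⟨fun _ => ValuationSubring.mem_top g, fun _ => ?_⟩
  rcases eq_or_ne g 0 with rfl | hg0
  · exact zero_mem _
  obtain ⟨n, hn⟩ : ∃ n : ℕ, 0 ≤ v.ord g + n * (-(v.ord f)) := by
    refine ⟨(-(v.ord g)).toNat, ?_⟩
    have h1 : (1 : ℤ) ≤ -(v.ord f) := by omega
    have h2 : (-(v.ord g)) ≤ ((-(v.ord g)).toNat : ℤ) := Int.self_le_toNat _
    have h3 : (0 : ℤ) ≤ ((-(v.ord g)).toNat : ℤ) := Int.natCast_nonneg _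
    nlinarith
  have hmem : g * (f⁻¹) ^ n ∈ v.toValuationSubring := by
    apply mem_of_ord_nonneg
    rw [v.ord_mul hg0 (pow_ne_zero _ (inv_ne_zero hf0)), ord_pow, v.ord_inv]
    exact hn
  have : g = (g * (f⁻¹) ^ n) * f ^ n := by
    rw [inv_pow, mul_assoc, inv_mul_cancel₀ (pow_ne_zero _ hf0), mul_one]
  rw [this]
  exact mul_mem (hle hmem) (pow_mem hf n)

open Fermat.Agent.S24.FF in
/-- Existence of a place centred at a `K`-algebra hom: `A` a `K`-subalgebra of `F`, not a field... :
for `ψ : A →ₐ[K] K` with nonzero kernel there is a place `v` with `A ≤ O_v` and `val v a = ψ a`.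
Proof: valuation ring dominating the localisation of `A` at `ker ψ`
(Mathlib `LocalSubring.exists_le_valuationSubring` / `ValuationSubring` domination), then the previous theorem. -/
theorem exists_place_of_algHom (A : Subalgebra K F) (ψ : A →ₐ[K] K) (hψ : ∃ a : A, a ≠ 0 ∧ ψ a = 0) :
    ∃ v : Place K F, ∀ a : A, 0 ≤ v.ord (a : F) ∧ val v (a : F) = ψ a := by
  obtain ⟨a₀, ha₀, hψa₀⟩ := hψ
  -- the kernel of `ψ` as an ideal of the subring `A`
  let I : Ideal A.toSubring := RingHom.ker (ψ : A →+* K)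
  have hI : I ≠ ⊤ := RingHom.ker_ne_top _
  obtain ⟨O, hAO, hIO⟩ := Ideal.image_subset_nonunits_valuationSubring I hI
  have hK : ∀ c : K, algebraMap K F c ∈ O := fun c => hAO (A.algebraMap_mem c)
  have hnon : ∀ a : A, ψ a = 0 → (a : F) ∈ O.nonunits := fun a ha => hIO ⟨a, ha, rfl⟩
  have hO : O ≠ ⊤ := by
    intro htop
    have h1 := hnon a₀ hψa₀
    rw [htop, ValuationSubring.mem_nonunits_iff_exists_mem_maximalIdeal] at h1
    obtain ⟨hmem, h2⟩ := h1
    have h3 : ¬ IsUnit (⟨(a₀ : F), hmem⟩ : (⊤ : ValuationSubring F)) :=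
      (IsLocalRing.mem_maximalIdeal _).1 h2
    apply h3
    have ha₀F : (a₀ : F) ≠ 0 := by simpa using ha₀
    refine isUnit_iff_exists_inv.2 ⟨⟨(a₀ : F)⁻¹, ValuationSubring.mem_top _⟩, ?_⟩
    apply Subtype.ext
    exact mul_inv_cancel₀ ha₀F
  obtain ⟨v, hv⟩ := exists_place_of_valuationSubring O hK hO
  have hsmall : ∀ a : A, ψ a = 0 → Val.Small v (a : F) := by
    intro a ha
    by_cases ha0 : (a : F) = 0
    · exact Or.inl ha0
    right
    have h1 := hnon a ha
    rw [← hv] at h1
    have h2 : 0 ≤ v.ord (a : F) := ord_nonneg_of_mem v (ValuationSubring.nonunits_subset h1)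
    rcases h2.lt_or_eq with h3 | h3
    · exact h3
    exfalso
    have h4 : (a : F)⁻¹ ∈ v.toValuationSubring := by
      apply mem_of_ord_nonneg
      rw [v.ord_inv, ← h3, neg_zero]
    rw [ValuationSubring.mem_nonunits_iff_exists_mem_maximalIdeal] at h1
    obtain ⟨hmem, h5⟩ := h1
    apply (IsLocalRing.mem_maximalIdeal _).1 h5
    refine isUnit_iff_exists_inv.2 ⟨⟨(a : F)⁻¹, h4⟩, ?_⟩
    apply Subtype.ext
    exact mul_inv_cancel₀ ha0
  refine ⟨v, fun a => ?_⟩
  refine ⟨ord_nonneg_of_mem v (by rw [hv]; exact hAO a.2), ?_⟩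
  apply Val.val_eq_of_small
  have := hsmall (a - algebraMap K A (ψ a)) (by rw [map_sub, AlgHom.commutes]; simp)
  simpa using this

end Fermat.Agent.S17.FF
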