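import Fermat.Agent.S17.FF.LBasic

/-! # S17 / A2 : Riemann's theorem (existence of the genus) -/

set_option autoImplicit false
set_option linter.unusedSectionVars false

open AlgebraicCurve IntermediateField

namespace Fermat.Agent.S17.FF

namespace Riemann

open Fermat.Agent.S24.FF

section Indep

variable {K F : Type*} [Field K] [Field F] [Algebra K F]

theorem linearIndependent_pow_of_transcendental {x : F} (hx : Transcendental K x) :
    LinearIndependent K (fun n : ℕ => x ^ n) := by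
  have h1 := (Polynomial.basisMonomials K).linearIndependent.map' (Polynomial.aeval x).toLinearMap
    (LinearMap.ker_eq_bot.mpr (transcendental_iff_injective.mp hx))
  have h2 : (fun n : ℕ => x ^ n) =
      (Polynomial.aeval x).toLinearMap ∘ (Polynomial.basisMonomials K) := by
    funext n
    simp
  rw [h2]
  exact h1

theorem linearIndependent_pow_mul {x : F} (hx : Transcendental K x) {ι : Type*} {u : ι → F}
    (hu : LinearIndependent K⟮x⟯ u) :
    LinearIndependent K (fun p : ℕ × ι => x ^ p.1 * u p.2) := by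
  have hb : LinearIndependent K (fun n : ℕ => (AdjoinSimple.gen K x) ^ n) := by
    refine LinearIndependent.of_comp (K⟮x⟯.val.toLinearMap) ?_
    have h2 : (K⟮x⟯.val.toLinearMap) ∘ (fun n : ℕ => (AdjoinSimple.gen K x) ^ n) =
        fun n : ℕ => x ^ n := by
      funext n
      simp
    rw [h2]
    exact linearIndependent_pow_of_transcendental hx
  have h3 := linearIndependent_smul hb hu
  have h4 : (fun p : ℕ × ι => x ^ p.1 * u p.2) =
      fun p : ℕ × ι => (AdjoinSimple.gen K x) ^ p.1 • u p.2 := by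
    funext p
    rw [Algebra.smul_def]
    simp
  rw [h4]
  exact h3

end Indep


section Main

variable {K F : Type*} [Field K] [Field F] [Algebra K F] [IsAlgClosed K] [CharZero K] [IsFF K F]

/-- the pole divisor of `x`. -/
noncomputable def poleDiv (x : F) : Divisor K F := divf x⁻¹ ⊔ 0

theorem poleDiv_apply (x : F) (v : Place K F) : poleDiv (K := K) x v = max (- v.ord x) 0 := by
  simp [poleDiv, Finsupp.sup_apply, Place.ord_inv]

theorem poleDiv_nonneg (x : F) : 0 ≤ poleDiv (K := K) x := le_sup_right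

theorem degree_poleDiv {x : F} (hx : Transcendental K x) [FiniteDimensional K⟮x⟯ F] :
    Divisor.degree (poleDiv (K := K) x) = Module.finrank K⟮x⟯ F := by
  have hxi := transcendental_inv K hx
  have : FiniteDimensional K⟮x⁻¹⟯ F := finiteDimensional_congr K (adjoin_simple_inv K x).symm
  rw [degree_eq_sum, ← finrank_congr K (adjoin_simple_inv K x), ← sum_ord_zeroPlaces K x⁻¹ hxi]
  rw [Finsupp.sum_of_support_subset _ (s := (zeroPlaces_finite K x⁻¹ hxi).toFinset) ?_ _ (by simp)]
  · refine Finset.sum_congr rfl fun v hv => ?_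
    rw [Set.Finite.mem_toFinset, mem_zeroPlaces] at hv
    rw [poleDiv_apply, ← Place.ord_inv]
    exact max_eq_left hv.le
  · intro v hv
    rw [Finsupp.mem_support_iff, poleDiv_apply] at hv
    rw [Set.Finite.mem_toFinset, mem_zeroPlaces, Place.ord_inv]
    by_contra h
    exact hv (max_eq_right (not_lt.mp h))

theorem pow_mem_LSp (x : F) {i l : ℕ} (hil : i ≤ l) :
    x ^ i ∈ LSp (l • poleDiv (K := K) x) := by
  right
  intro v
  rw [ord_pow, Finsupp.smul_apply, poleDiv_apply, nsmul_eq_mul]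
  have hil' : (i : ℤ) ≤ l := by exact_mod_cast hil
  rcases le_total 0 (v.ord x) with h | h
  · rw [max_eq_right (by omega)]
    positivity
  · rw [max_eq_left (by omega)]
    nlinarith

theorem self_mem_LSp_poleDiv (u : F) : u ∈ LSp (poleDiv (K := K) u) := by
  right
  intro v
  rw [poleDiv_apply]
  have := le_max_left (-v.ord u) 0
  omega

theorem exists_le_ell {x : F} (hx : Transcendental K x) [FiniteDimensional K⟮x⟯ F] :
    ∃ C : Divisor K F, 0 ≤ C ∧ ∀ l : ℕ,
      (l + 1) * Module.finrank K⟮x⟯ F ≤ ell (l • poleDiv (K := K) x + C) := by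
  classical
  obtain ⟨u, hu⟩ : ∃ u : Fin (Module.finrank K⟮x⟯ F) → F, LinearIndependent K⟮x⟯ u :=
    ⟨_, (Module.finBasis K⟮x⟯ F).linearIndependent⟩
  refine ⟨∑ j, poleDiv (u j), Finset.sum_nonneg fun j _ => poleDiv_nonneg _, fun l => ?_⟩
  have hmem : ∀ p : Fin (l + 1) × Fin (Module.finrank K⟮x⟯ F),
      x ^ (p.1 : ℕ) * u p.2 ∈ LSp (l • poleDiv (K := K) x + ∑ j, poleDiv (u j)) := by
    intro p
    refine mul_mem_LSp (pow_mem_LSp x (Nat.lt_succ_iff.mp p.1.2)) ?_
    refine LSp_mono ?_ (self_mem_LSp_poleDiv (u p.2))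
    exact Finset.single_le_sum (f := fun j => poleDiv (K := K) (u j))
      (fun j _ => poleDiv_nonneg _) (Finset.mem_univ p.2)
  have hli : LinearIndependent K (fun p : Fin (l + 1) × Fin (Module.finrank K⟮x⟯ F) =>
      (⟨_, hmem p⟩ : LSp (l • poleDiv (K := K) x + ∑ j, poleDiv (u j)))) := by
    refine LinearIndependent.of_comp (LSp _).subtype ?_
    exact (linearIndependent_pow_mul hx hu).comp
      (fun p : Fin (l + 1) × Fin (Module.finrank K⟮x⟯ F) => ((p.1 : ℕ), p.2))
      (fun p q h => by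
        simp only [Prod.mk.injEq] at h
        exact Prod.ext (Fin.ext h.1) h.2)
  have := hli.fintype_card_le_finrank
  simpa [ell, Fintype.card_prod] using this

theorem exists_bound_nsmul {x : F} (hx : Transcendental K x) [FiniteDimensional K⟮x⟯ F] :
    ∃ γ : ℤ, ∀ l : ℕ,
      Divisor.degree (l • poleDiv (K := K) x) - ell (l • poleDiv (K := K) x) ≤ γ := by
  obtain ⟨C, hC, h⟩ := exists_le_ell (K := K) hx
  refine ⟨Divisor.degree C - Module.finrank K⟮x⟯ F, fun l => ?_⟩
  have h1 := degree_sub_ell_mono (D := l • poleDiv (K := K) x) (E := l • poleDiv (K := K) x + C)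
    (le_add_of_nonneg_right hC)
  have h2 : (((l + 1) * Module.finrank K⟮x⟯ F : ℕ) : ℤ) ≤ ell (l • poleDiv (K := K) x + C) := by
    exact_mod_cast h l
  rw [map_add, map_nsmul, degree_poleDiv hx] at h1
  rw [map_nsmul, degree_poleDiv hx]
  push_cast at h2
  simp only [nsmul_eq_mul] at h1 ⊢
  nlinarith

theorem exists_ne_zero_mem_of_ell_pos {D : Divisor K F} (h : 0 < ell D) :
    ∃ z : F, z ≠ 0 ∧ z ∈ LSp D := by
  have : Nontrivial (LSp D) := Module.nontrivial_of_finrank_pos (R := K) h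
  obtain ⟨z, hz⟩ := exists_ne (0 : LSp D)
  exact ⟨z, fun h0 => hz (Subtype.ext h0), z.2⟩

variable (K F) in
theorem exists_bound : ∃ γ : ℤ, ∀ A : Divisor K F, Divisor.degree A - ell A ≤ γ := by
  obtain ⟨x, hx, hfin⟩ := IsFF.exists_gen (K := K) (F := F)
  obtain ⟨γ, hγ⟩ := exists_bound_nsmul (K := K) hx
  refine ⟨γ, fun A => ?_⟩
  have hn : (1 : ℤ) ≤ Module.finrank K⟮x⟯ F := by
    exact_mod_cast (Module.finrank_pos : 0 < Module.finrank K⟮x⟯ F)
  obtain ⟨A₁, hA₁⟩ : ∃ A₁ : Divisor K F, A₁ = A ⊔ 0 := ⟨_, rfl⟩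
  have hAA₁ : A ≤ A₁ := hA₁ ▸ le_sup_left
  have hA₁0 : 0 ≤ A₁ := hA₁ ▸ le_sup_right
  obtain ⟨l, hl⟩ : ∃ l : ℕ, γ + Divisor.degree A₁ + 1 ≤ l :=
    ⟨(γ + Divisor.degree A₁ + 1).toNat, Int.self_le_toNat _⟩
  have h1 := degree_sub_ell_mono (D := l • poleDiv (K := K) x - A₁) (E := l • poleDiv (K := K) x)
    (sub_le_self _ hA₁0)
  have h2 := hγ l
  have h3 : Divisor.degree (l • poleDiv (K := K) x) = l * Module.finrank K⟮x⟯ F := by
    rw [map_nsmul, degree_poleDiv hx, nsmul_eq_mul]
  rw [map_sub] at h1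
  have hl0 : (0 : ℤ) ≤ l := Int.natCast_nonneg l
  have h4 : 0 < ell (l • poleDiv (K := K) x - A₁) := by
    have : (0 : ℤ) < ell (l • poleDiv (K := K) x - A₁) := by nlinarith
    exact_mod_cast this
  obtain ⟨z, hz0, hz⟩ := exists_ne_zero_mem_of_ell_pos h4
  have h5 : A₁ + divf z⁻¹ ≤ l • poleDiv (K := K) x := by
    have h6 := (mem_LSp_iff_divf hz0).mp hz
    rw [divf_inv]
    have h7 : l • poleDiv (K := K) x - (A₁ + -divf z) = divf z + (l • poleDiv (K := K) x - A₁) := by
      abel
    rw [← sub_nonneg, h7]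
    exact h6
  have h8 := degree_sub_ell_mono h5
  have h9 := degree_sub_ell_mono hAA₁
  rw [ell_add_divf _ (inv_ne_zero hz0), map_add, degree_divf, add_zero] at h8
  omega

end Main

end Riemann

variable (K F : Type*) [Field K] [Field F] [Algebra K F] [IsAlgClosed K] [CharZero K] [IsFF K F]

/-- Riemann's theorem.  Proof: Stichtenoth, Prop. 1.4.14 - Thm 1.4.17:
`x` transcendental, `B = (x)_∞`, `deg B = [F:K(x)] = n` (`S24.FF.sum_ord_zeroPlaces` for `x⁻¹`);
a basis `u_j` of `F/K(x)`, `C ≥ 0` with `div u_j ≥ -C`; the `x^i u_j` (`i ≤ l`) are independent in `L(lB+C)`;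
so `deg(lB) - l(lB) ≤ deg C - n`.  Every `A` is `≤ A₁ ~ D ≤ lB`; use `degree_sub_ell_mono`. -/
theorem exists_genus : ∃ (g : ℕ) (c : ℤ),
    (∀ D : Divisor K F, Divisor.degree D + 1 - g ≤ ell D) ∧
    (∀ D : Divisor K F, c ≤ Divisor.degree D → (ell D : ℤ) = Divisor.degree D + 1 - g) := by
  obtain ⟨γ, hγ⟩ := Riemann.exists_bound K F
  obtain ⟨g, ⟨A₀, hA₀⟩, hmax⟩ := Int.exists_greatest_of_bdd
    (P := fun z : ℤ => ∃ A : Divisor K F, z = Divisor.degree A - ell A + 1)
    ⟨γ + 1, by rintro z ⟨A, rfl⟩; have := hγ A; omega⟩ ⟨_, 0, rfl⟩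
  have hg0 : 0 ≤ g := by
    have := hmax _ ⟨0, rfl⟩
    rw [map_zero, ell_zero] at this
    simpa using this
  obtain ⟨g', rfl⟩ := Int.eq_ofNat_of_zero_le hg0
  have hle : ∀ D : Divisor K F, Divisor.degree D + 1 - g' ≤ ell D := by
    intro D
    have := hmax _ ⟨D, rfl⟩
    omega
  refine ⟨g', Divisor.degree A₀ + g', hle, fun A hA => ?_⟩
  refine le_antisymm ?_ (hle A)
  have h1 := hle (A - A₀)
  rw [map_sub] at h1
  have h2 : 0 < ell (A - A₀) := by
    have : (0 : ℤ) < ell (A - A₀) := by omega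
    exact_mod_cast this
  obtain ⟨z, hz0, hz⟩ := Riemann.exists_ne_zero_mem_of_ell_pos h2
  have h3 : A₀ ≤ A + divf z := by
    have h4 := (mem_LSp_iff_divf hz0).mp hz
    have h5 : A + divf z - A₀ = divf z + (A - A₀) := by abel
    rw [← sub_nonneg, h5]
    exact h4
  have h6 := degree_sub_ell_mono h3
  rw [ell_add_divf _ hz0, map_add, degree_divf, add_zero] at h6
  omega

/-- the genus (in the sense of Riemann's theorem) -/
noncomputable def genus : ℕ := (exists_genus K F).choose

/-- a bound from which on `l(D) = deg D + 1 - g`; we normalise it to be `≥ 0`. -/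
noncomputable def rc : ℤ := max 0 (exists_genus K F).choose_spec.choose

variable {K F}

theorem rc_nonneg : 0 ≤ rc K F := le_max_left _ _

theorem riemann_le (D : Divisor K F) : Divisor.degree D + 1 - genus K F ≤ ell D :=
  (exists_genus K F).choose_spec.choose_spec.1 D

theorem riemann_eq {D : Divisor K F} (h : rc K F ≤ Divisor.degree D) :
    (ell D : ℤ) = Divisor.degree D + 1 - genus K F :=
  (exists_genus K F).choose_spec.choose_spec.2 D ((le_max_right _ _).trans h)

end Fermat.Agent.S17.FF
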