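import Fermat.Agent.S17.FF.Defs

/-! # S17 / A1 : basic properties of `L(D)` -/

set_option autoImplicit false

open AlgebraicCurve IntermediateField

namespace Fermat.Agent.S17.FF

variable {K F : Type*} [Field K] [Field F] [Algebra K F]

theorem LSp_mono {D E : Divisor K F} (h : D ≤ E) : LSp D ≤ LSp E := by
  rintro f (rfl | hf)
  · exact Or.inl rfl
  · right
    intro v
    have := h v
    have := hf v
    omega

theorem mul_mem_LSp {D E : Divisor K F} {f g : F} (hf : f ∈ LSp D) (hg : g ∈ LSp E) :
    f * g ∈ LSp (D + E) := by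
  rcases eq_or_ne f 0 with rfl | hf0
  · left; simp
  rcases eq_or_ne g 0 with rfl | hg0
  · left; simp
  rcases hf with hf | hf
  · exact absurd hf hf0
  rcases hg with hg | hg
  · exact absurd hg hg0
  right
  intro v
  rw [v.ord_mul hf0 hg0, Finsupp.add_apply]
  have := hf v
  have := hg v
  omega

variable [IsAlgClosed K] [CharZero K] [IsFF K F]

theorem divf_mul {f g : F} (hf : f ≠ 0) (hg : g ≠ 0) :
    divf (K := K) (f * g) = divf f + divf g := by
  ext v
  simp [v.ord_mul hf hg]

theorem divf_inv (f : F) : divf (K := K) f⁻¹ = - divf f := by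
  ext v
  simp [v.ord_inv]

theorem isPrincipal_iff {D : Divisor K F} :
    Divisor.IsPrincipal D ↔ ∃ f : F, f ≠ 0 ∧ D = divf f := by
  constructor
  · rintro ⟨f, hf, h⟩
    exact ⟨f, hf, Finsupp.ext fun v => by rw [h v, divf_apply]⟩
  · rintro ⟨f, hf, rfl⟩
    exact ⟨f, hf, fun v => rfl⟩

/-- `f ∈ L(D)`, `f ≠ 0` iff `div f + D` is effective. -/
theorem mem_LSp_iff_divf {D : Divisor K F} {f : F} (hf : f ≠ 0) :
    f ∈ LSp D ↔ 0 ≤ divf f + D := by
  rw [mem_LSp]
  constructor
  · rintro (h | h)
    · exact absurd h hf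
    · intro v
      simpa using h v
  · intro h
    right
    intro v
    simpa using h v

namespace LBasic

theorem exists_ord_pos {f : F} (hf : Transcendental K f) : ∃ v : Place K F, 0 < v.ord f := by
  obtain ⟨y, hy, hfin⟩ := IsFF.exists_gen (K := K) (F := F)
  have : FiniteDimensional K⟮f⟯ F := Fermat.Agent.S24.FF.finiteDimensional_of_transcendental K y hf
  have h := Fermat.Agent.S24.FF.sum_ord_zeroPlaces K f hf
  by_contra hcon
  push Not at hcon
  have hempty : (Fermat.Agent.S24.FF.zeroPlaces_finite K f hf).toFinset = ∅ := by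
    ext v
    simp only [Set.Finite.mem_toFinset, Fermat.Agent.S24.FF.mem_zeroPlaces]
    constructor
    · intro hv; exact absurd hv (not_lt.mpr (hcon v))
    · intro hv; simp at hv
  rw [hempty, Finset.sum_empty] at h
  have hpos : 0 < Module.finrank K⟮f⟯ F := Module.finrank_pos
  omega

theorem nonempty_place : Nonempty (Place K F) := by
  obtain ⟨y, hy, hfin⟩ := IsFF.exists_gen (K := K) (F := F)
  obtain ⟨v, -⟩ := exists_ord_pos (K := K) hy
  exact ⟨v⟩

theorem degree_nonneg {D : Divisor K F} (h : 0 ≤ D) : 0 ≤ Divisor.degree D := by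
  rw [degree_eq_sum]
  exact Finset.sum_nonneg fun v _ => h v

theorem le_degree {D : Divisor K F} (h : 0 ≤ D) (v : Place K F) : D v ≤ Divisor.degree D := by
  classical
  rw [degree_eq_sum]
  by_cases hv : v ∈ D.support
  · exact Finset.single_le_sum (f := fun w => D w) (fun w _ => h w) hv
  · rw [Finsupp.notMem_support_iff.mp hv]
    exact Finset.sum_nonneg fun v _ => h v

theorem eq_zero_of_degree_eq_zero {D : Divisor K F} (h : 0 ≤ D) (hd : Divisor.degree D = 0) :
    D = 0 := by
  ext v
  have h1 := le_degree h v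
  have h2 := h v
  simp only [Finsupp.coe_zero, Pi.zero_apply] at h2 ⊢
  omega

theorem degree_pdiv (v : Place K F) : Divisor.degree (pdiv v) = 1 := by
  simp [deg_eq_one]

omit [IsAlgClosed K] [CharZero K] [IsFF K F] in
theorem exists_pos_of_ne_zero {D : Divisor K F} (h : 0 ≤ D) (h0 : D ≠ 0) : ∃ v, 0 < D v := by
  by_contra hcon
  push Not at hcon
  apply h0
  ext v
  have h1 := hcon v
  have h2 := h v
  simp only [Finsupp.coe_zero, Pi.zero_apply] at h2 ⊢
  omega

omit [IsAlgClosed K] [CharZero K] [IsFF K F] in
theorem sub_pdiv_nonneg {D : Divisor K F} (h : 0 ≤ D) {v : Place K F} (hv : 0 < D v) :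
    0 ≤ D - pdiv v := by
  classical
  intro w
  have h2 := h w
  simp only [Finsupp.coe_zero, Pi.zero_apply, Finsupp.coe_sub, Pi.sub_apply] at h2 ⊢
  by_cases hw : v = w
  · subst hw; simp; omega
  · rw [Finsupp.single_eq_of_ne' hw]; omega

/-- induction on effective divisors -/
theorem effective_induction {p : Divisor K F → Prop} (h0 : p 0)
    (hadd : ∀ (G : Divisor K F) (v : Place K F), 0 ≤ G → p G → p (G + pdiv v)) :
    ∀ G : Divisor K F, 0 ≤ G → p G := by
  have key : ∀ (n : ℕ) (G : Divisor K F), 0 ≤ G → Divisor.degree G = n → p G := by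
    intro n
    induction n with
    | zero =>
      intro G hG hd
      rw [eq_zero_of_degree_eq_zero hG (by simpa using hd)]
      exact h0
    | succ n ih =>
      intro G hG hd
      have hG0 : G ≠ 0 := by
        rintro rfl
        simp at hd
        omega
      obtain ⟨v, hv⟩ := exists_pos_of_ne_zero hG hG0
      have h1 := sub_pdiv_nonneg hG hv
      have h2 : Divisor.degree (G - pdiv v) = n := by
        rw [map_sub, degree_pdiv, hd]; push_cast; ring
      have := hadd _ v h1 (ih _ h1 h2)
      rwa [sub_add_cancel] at this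
  intro G hG
  exact key (Divisor.degree G).toNat G hG (Int.toNat_of_nonneg (degree_nonneg hG)).symm

end LBasic

open LBasic

theorem LSp_eq_bot_of_degree_neg {D : Divisor K F} (h : Divisor.degree D < 0) : LSp D = ⊥ := by
  rw [eq_bot_iff]
  intro f hf
  by_contra hf0
  have hf0' : f ≠ 0 := hf0
  have h1 := degree_nonneg ((mem_LSp_iff_divf hf0').mp hf)
  rw [map_add, degree_divf] at h1
  omega

/-- A function without poles is constant. -/
theorem mem_LSp_zero {f : F} : f ∈ LSp (0 : Divisor K F) ↔ ∃ c : K, f = algebraMap K F c := by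
  constructor
  · intro hf
    by_cases hft : Transcendental K f
    · exfalso
      obtain ⟨v, hv⟩ := exists_ord_pos (Fermat.Agent.S24.FF.transcendental_inv K hft)
      rw [v.ord_inv] at hv
      rcases hf with rfl | hf
      · simp at hv
      · have := hf v
        simp at this
        omega
    · obtain ⟨c, hc⟩ := Fermat.Agent.S24.FF.mem_range_of_not_transcendental K hft
      exact ⟨c, hc.symm⟩
  · rintro ⟨c, rfl⟩
    right
    intro v
    simp [Fermat.Agent.S24.FF.ord_algebraMap]

/-- If `deg D = 0` and `L(D) ≠ 0` then `D` is principal (more precisely `D = - div f`). -/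
theorem eq_neg_divf_of_mem_LSp {D : Divisor K F} (h : Divisor.degree D = 0) {f : F} (hf : f ≠ 0)
    (hfD : f ∈ LSp D) : D = - divf f := by
  have h1 := (mem_LSp_iff_divf hf).mp hfD
  have h2 : Divisor.degree (divf f + D) = 0 := by rw [map_add, degree_divf, h, add_zero]
  have h3 := eq_zero_of_degree_eq_zero h1 h2
  exact eq_neg_of_add_eq_zero_right h3

/-- `L(D) → L(D + div g)`, `f ↦ f / g` is an isomorphism. -/
theorem mem_LSp_add_divf {D : Divisor K F} {f g : F} (hg : g ≠ 0) :
    f ∈ LSp (D + divf g) ↔ f * g ∈ LSp D := by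
  rcases eq_or_ne f 0 with rfl | hf
  · simp
  rw [mem_LSp_iff_divf hf, mem_LSp_iff_divf (mul_ne_zero hf hg), divf_mul hf hg]
  rw [show divf f + (D + divf g) = divf f + divf g + D by abel]

namespace LBasic

/-- the key step: `L(D + P)` is spanned by `L(D)` and one more function. -/
theorem exists_LSp_add_pdiv_le (D : Divisor K F) (v : Place K F) :
    ∃ f₀ : F, LSp (D + pdiv v) ≤ LSp D ⊔ Submodule.span K {f₀} := by
  classical
  by_cases hle : LSp (D + pdiv v) ≤ LSp D
  · exact ⟨0, hle.trans le_sup_left⟩
  obtain ⟨f₀, hf₀, hf₀'⟩ := SetLike.not_le_iff_exists.mp hle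
  have hf₀0 : f₀ ≠ 0 := by
    rintro rfl
    exact hf₀' (zero_mem _)
  have hf₀all : ∀ w : Place K F, 0 ≤ w.ord f₀ + (D + pdiv v) w := by
    rcases hf₀ with h | h
    · exact absurd h hf₀0
    · exact h
  have hother : ∀ w : Place K F, w ≠ v → (D + pdiv v) w = D w := by
    intro w hw
    rw [Finsupp.add_apply, Finsupp.single_eq_of_ne hw, add_zero]
  have hself : (D + pdiv v) v = D v + 1 := by
    rw [Finsupp.add_apply, Finsupp.single_eq_same]
  -- the order of `f₀` at `v` is exactly `-(D v + 1)`
  have hord : v.ord f₀ = -(D v + 1) := by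
    by_contra hne
    apply hf₀'
    right
    intro w
    by_cases hw : w = v
    · subst hw
      have := hf₀all w
      rw [hself] at this
      omega
    · have := hf₀all w
      rwa [hother w hw] at this
  refine ⟨f₀, ?_⟩
  intro f hf
  rcases eq_or_ne f 0 with rfl | hf0
  · exact zero_mem _
  have hfall : ∀ w : Place K F, 0 ≤ w.ord f + (D + pdiv v) w := by
    rcases hf with h | h
    · exact absurd h hf0
    · exact h
  have hquot : 0 ≤ v.ord (f / f₀) := by
    rw [Fermat.Agent.S24.FF.ord_div v hf0 hf₀0, hord]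
    have := hfall v
    rw [hself] at this
    omega
  obtain ⟨c, hc⟩ := exists_sub_ord_pos v hquot
  have hmem : f - c • f₀ ∈ LSp D := by
    rcases hc with hc | hc
    · have : f - c • f₀ = 0 := by
        rw [Algebra.smul_def, ← hc, div_mul_cancel₀ _ hf₀0, sub_self]
      rw [this]; exact zero_mem _
    · have hg : f - c • f₀ ∈ LSp (D + pdiv v) :=
        Submodule.sub_mem _ hf (Submodule.smul_mem _ _ hf₀)
      have e : f - c • f₀ = (f / f₀ - algebraMap K F c) * f₀ := by
        rw [Algebra.smul_def, sub_mul, div_mul_cancel₀ _ hf₀0]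
      have hne : f / f₀ - algebraMap K F c ≠ 0 :=
        Fermat.Agent.S24.FF.ne_zero_of_ord_ne_zero v hc.ne'
      rcases hg with hg | hg
      · rw [hg]; exact zero_mem _
      right
      intro w
      by_cases hw : w = v
      · subst hw
        rw [e, w.ord_mul hne hf₀0, hord]
        omega
      · have := hg w
        rwa [hother w hw] at this
  have : f = (f - c • f₀) + c • f₀ := by ring
  rw [this]
  exact Submodule.add_mem _ (Submodule.mem_sup_left hmem)
    (Submodule.mem_sup_right (Submodule.smul_mem _ _ (Submodule.mem_span_singleton_self _)))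

theorem finiteDimensional_aux (n : ℕ) :
    ∀ D : Divisor K F, Divisor.degree D < n → FiniteDimensional K (LSp D) := by
  induction n with
  | zero =>
    intro D hD
    rw [LSp_eq_bot_of_degree_neg (by simpa using hD)]
    infer_instance
  | succ n ih =>
    intro D hD
    obtain ⟨v⟩ := nonempty_place (K := K) (F := F)
    have h1 : Divisor.degree (D - pdiv v) < n := by
      rw [map_sub, degree_pdiv]; push_cast at hD; omega
    have := ih _ h1
    obtain ⟨f₀, hf₀⟩ := exists_LSp_add_pdiv_le (D - pdiv v) v
    rw [sub_add_cancel] at hf₀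
    exact Submodule.finiteDimensional_of_le hf₀

end LBasic

instance finiteDimensional_LSp (D : Divisor K F) : FiniteDimensional K (LSp D) :=
  finiteDimensional_aux (Divisor.degree D + 1).toNat D (by omega)

theorem ell_add_divf (D : Divisor K F) {g : F} (hg : g ≠ 0) : ell (D + divf g) = ell D := by
  have hinj : Function.Injective (LinearMap.mulRight K g) := fun a b h =>
    mul_right_cancel₀ hg h
  have hmap : (LSp (D + divf g)).map (LinearMap.mulRight K g) = LSp D := by
    ext x
    rw [Submodule.mem_map]
    constructor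
    · rintro ⟨f, hf, rfl⟩
      exact (mem_LSp_add_divf hg).mp hf
    · intro hx
      refine ⟨x / g, (mem_LSp_add_divf hg).mpr ?_, ?_⟩
      · rwa [div_mul_cancel₀ _ hg]
      · simp [div_mul_cancel₀ _ hg]
  unfold ell
  rw [← hmap]
  exact (Submodule.equivMapOfInjective _ hinj _).finrank_eq

theorem ell_mono {D E : Divisor K F} (h : D ≤ E) : ell D ≤ ell E :=
  Submodule.finrank_mono (LSp_mono h)

theorem ell_add_pdiv_le (D : Divisor K F) (v : Place K F) : ell (D + pdiv v) ≤ ell D + 1 := by
  obtain ⟨f₀, hf₀⟩ := exists_LSp_add_pdiv_le D v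
  calc ell (D + pdiv v) ≤ Module.finrank K (LSp D ⊔ Submodule.span K {f₀} : Submodule K F) :=
        Submodule.finrank_mono hf₀
    _ ≤ Module.finrank K (LSp D) + Module.finrank K (Submodule.span K {f₀}) :=
        Submodule.finrank_add_le_finrank_add_finrank _ _
    _ ≤ ell D + 1 := by
        have : Module.finrank K (Submodule.span K {f₀}) ≤ 1 := by
          have := finrank_span_le_card (R := K) ({f₀} : Set F)
          simpa using this
        unfold ell
        omega

/-- `deg D - l(D)` is monotone in `D`. -/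
theorem degree_sub_ell_mono {D E : Divisor K F} (h : D ≤ E) :
    Divisor.degree D - ell D ≤ Divisor.degree E - ell E := by
  have key : ∀ G : Divisor K F, 0 ≤ G →
      Divisor.degree D - ell D ≤ Divisor.degree (D + G) - ell (D + G) := by
    apply effective_induction
    · simp
    · intro G v _ ih
      have h1 := ell_add_pdiv_le (D + G) v
      rw [← add_assoc, map_add _ (D + G), degree_pdiv]
      omega
  have := key (E - D) (sub_nonneg.mpr h)
  rwa [add_sub_cancel] at this

theorem ell_zero : ell (0 : Divisor K F) = 1 := by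
  have : LSp (0 : Divisor K F) = Submodule.span K {(1 : F)} := by
    ext f
    rw [mem_LSp_zero, Submodule.mem_span_singleton]
    constructor
    · rintro ⟨c, rfl⟩
      exact ⟨c, by rw [Algebra.smul_def, mul_one]⟩
    · rintro ⟨c, rfl⟩
      exact ⟨c, by rw [Algebra.smul_def, mul_one]⟩
  unfold ell
  rw [this]
  exact finrank_span_singleton one_ne_zero

theorem ell_le_degree_add_one {D : Divisor K F} (h : 0 ≤ Divisor.degree D) :
    (ell D : ℤ) ≤ Divisor.degree D + 1 := by
  by_cases hbot : LSp D = ⊥
  · have : ell D = 0 := by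
      unfold ell
      rw [hbot]
      exact finrank_bot K F
    rw [this]
    push_cast
    omega
  · obtain ⟨f, hf, hf0⟩ := (Submodule.ne_bot_iff _).mp hbot
    have h1 : 0 ≤ D + divf f := by
      rw [add_comm]; exact (mem_LSp_iff_divf hf0).mp hf
    have h2 := degree_sub_ell_mono h1
    rw [ell_add_divf D hf0, map_add, degree_divf, ell_zero, map_zero] at h2
    push_cast at h2
    omega

theorem degree_tdiv {d : ℕ} (P : Fin d → Place K F) : Divisor.degree (tdiv P) = d := by
  unfold tdiv
  rw [map_sum]
  simp [deg_eq_one]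

/-- Every effective divisor is the divisor of a tuple. -/
theorem exists_tdiv_eq {E : Divisor K F} (hE : 0 ≤ E) {d : ℕ} (hd : Divisor.degree E = d) :
    ∃ P : Fin d → Place K F, tdiv P = E := by
  induction d generalizing E with
  | zero =>
    refine ⟨Fin.elim0, ?_⟩
    rw [eq_zero_of_degree_eq_zero hE (by simpa using hd)]
    simp [tdiv]
  | succ d ih =>
    have hE0 : E ≠ 0 := by
      rintro rfl
      simp at hd
      omega
    obtain ⟨v, hv⟩ := exists_pos_of_ne_zero hE hE0
    have h1 := sub_pdiv_nonneg hE hv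
    have h2 : Divisor.degree (E - pdiv v) = d := by
      rw [map_sub, degree_pdiv, hd]; push_cast; ring
    obtain ⟨P, hP⟩ := ih h1 h2
    refine ⟨Fin.cons v P, ?_⟩
    unfold tdiv at hP ⊢
    rw [Fin.sum_univ_succ]
    simp only [Fin.cons_zero, Fin.cons_succ]
    rw [hP]
    abel

end Fermat.Agent.S17.FF
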